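/-
S31lib / TC (helper4): traces of powers of a rank-2 endomorphism as universal polynomials in the
trace and the determinant (Cayley–Hamilton recursion `s_{j+2} = t s_{j+1} - d s_j`).
-/
import Mathlib

set_option autoImplicit false
set_option linter.unusedSectionVars false

noncomputable section

namespace Fermat.Agent.S31lib.TC

open Polynomial

section PowTr

variable {R : Type*} [CommRing R]

/-- the trace of the `j`-th power of a 2×2 matrix with trace `t` and determinant `d`. -/
def powTr (t d : R) : ℕ → R
  | 0 => 2
  | 1 => t
  | (j + 2) => t * powTr t d (j + 1) - d * powTr t d j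

@[simp] lemma powTr_zero (t d : R) : powTr t d 0 = 2 := rfl
@[simp] lemma powTr_one (t d : R) : powTr t d 1 = t := rfl
lemma powTr_add_two (t d : R) (j : ℕ) :
    powTr t d (j + 2) = t * powTr t d (j + 1) - d * powTr t d j := rfl

lemma map_powTr {S : Type*} [CommRing S] (f : R →+* S) (t d : R) (j : ℕ) :
    f (powTr t d j) = powTr (f t) (f d) j := by
  induction j using Nat.twoStepInduction with
  | zero => rw [powTr_zero, powTr_zero, map_ofNat]
  | one => simp
  | more j h1 h2 => rw [powTr_add_two, powTr_add_two, map_sub, map_mul, map_mul, h1, h2]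

end PowTr

section Trace

variable {R : Type*} [CommRing R] [Nontrivial R] {V : Type*} [AddCommGroup V] [Module R V]
  [Module.Free R V] [Module.Finite R V]

/-- trace and determinant from a quadratic characteristic polynomial. -/
theorem trace_eq_of_charpoly (hrank : Module.finrank R V = 2) (f : Module.End R V) {t d : R}
    (hf : LinearMap.charpoly f = X ^ 2 - C t * X + C d) :
    LinearMap.trace R V f = t := by
  classical
  let b : Module.Basis (Fin 2) R V := Module.finBasisOfFinrankEq R V hrank
  have h1 : (LinearMap.toMatrix b b f).charpoly = X ^ 2 - C t * X + C d := by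
    rw [LinearMap.charpoly_toMatrix, hf]
  rw [Matrix.charpoly_fin_two] at h1
  have h2 := congrArg (fun q : R[X] => q.coeff 1) h1
  simp only [coeff_add, coeff_sub, coeff_X_pow, coeff_C_mul, coeff_X_one, coeff_C] at h2
  norm_num at h2
  rw [LinearMap.trace_eq_matrix_trace R b]
  exact h2

/-- **traces of powers.** -/
theorem trace_pow_eq (hrank : Module.finrank R V = 2) (f : Module.End R V) {t d : R}
    (hf : LinearMap.charpoly f = X ^ 2 - C t * X + C d) (j : ℕ) :
    LinearMap.trace R V (f ^ j) = powTr t d j := by
  have hCH : f ^ 2 = t • f - d • (1 : Module.End R V) := by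
    have h := LinearMap.aeval_self_charpoly f
    rw [hf] at h
    simp only [map_add, map_sub, map_mul, map_pow, aeval_X, aeval_C,
      Algebra.algebraMap_eq_smul_one] at h
    rw [smul_mul_assoc, one_mul] at h
    rw [← sub_eq_zero, ← h]
    abel
  have hrec : ∀ j, f ^ (j + 2) = t • f ^ (j + 1) - d • f ^ j := by
    intro j
    rw [pow_add, hCH, mul_sub, mul_smul_comm, mul_smul_comm, mul_one, ← pow_succ]
  induction j using Nat.twoStepInduction with
  | zero =>
    rw [pow_zero, LinearMap.trace_one, hrank, powTr_zero]
    norm_num
  | one => rw [pow_one, powTr_one, trace_eq_of_charpoly hrank f hf]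
  | more j h1 h2 =>
    rw [hrec, map_sub, map_smul, map_smul, h1, h2, powTr_add_two, smul_eq_mul, smul_eq_mul]

end Trace

end Fermat.Agent.S31lib.TC
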