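/-
S31lib / TC (helper4): **trace comparison**.  Let `ρ` be an adic representation over a Hausdorff
local ring `T` whose Frobenius characteristic polynomials are `X² - π(t_ℓ) X + ℓ` for a ring
homomorphism `π : B → T`.  Let `ρ'_i` be finitely many representations over DVRs `R_i` with
Frobenius characteristic polynomials `X² - χ_i(t_ℓ) X + ℓ`, such that the `χ_i` satisfy the
lattice property (*) and the weak Chebotarev property holds.  If `τ` acts trivially in all `ρ'_i`,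
then `tr ρ(τσ) = tr ρ(σ)` for all `σ`.
-/
import Mathlib
import Fermat.Prelude.Def_GaloisRep_Adic
import Fermat.Agent.S29lib.Dvr.Complete
import Fermat.Agent.S31lib.TC.PowTrace

set_option autoImplicit false
set_option linter.unusedSectionVars false
set_option linter.unusedVariables false
set_option linter.style.haveILetI false

noncomputable section

namespace Fermat.Agent.S31lib.TC

open Polynomial IsLocalRing

local notation "Qb" => AlgebraicClosure ℚ
local notation "GQ" => (AlgebraicClosure ℚ ≃ₐ[ℚ] AlgebraicClosure ℚ)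

/-! ### generalities -/

section General

variable {R : Type*} [CommRing R]

/-- Hausdorff: an element in all powers of `I` vanishes. -/
theorem eq_zero_of_forall_mem_pow' (I : Ideal R) [IsHausdorff I R] {y : R}
    (h : ∀ n : ℕ, y ∈ I ^ n) : y = 0 := by
  apply IsHausdorff.haus (inferInstance : IsHausdorff I R) y
  intro n
  rw [SModEq.zero]
  have : (I ^ n • ⊤ : Submodule R R) = I ^ n := by simp
  rw [this]
  exact h n

variable {V : Type*} [AddCommGroup V] [Module R V] [Module.Free R V] [Module.Finite R V]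

/-- the trace of an endomorphism with values in `I • ⊤` lies in `I`. -/
theorem trace_mem_of_forall_mem (I : Ideal R) (g : Module.End R V)
    (hg : ∀ v, g v ∈ I • (⊤ : Submodule R V)) : LinearMap.trace R V g ∈ I := by
  classical
  let b := Module.Free.chooseBasis R V
  rw [LinearMap.trace_eq_matrix_trace R b, Matrix.trace]
  refine Ideal.sum_mem _ fun i _ => ?_
  rw [Matrix.diag_apply, LinearMap.toMatrix_apply]
  exact Fermat.Agent.S29lib.Dvr.repr_mem_of_mem_smul_top b I (hg (b i)) i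

/-- congruent endomorphisms have congruent traces. -/
theorem trace_sub_mem (I : Ideal R) (f e : Module.End R V)
    (he : ∀ v, e v - v ∈ I • (⊤ : Submodule R V)) :
    LinearMap.trace R V (f * e) - LinearMap.trace R V f ∈ I := by
  have h1 : LinearMap.trace R V (f * e) - LinearMap.trace R V f =
      LinearMap.trace R V (f * (e - 1)) := by
    rw [mul_sub, mul_one, map_sub]
  rw [h1]
  refine trace_mem_of_forall_mem I _ fun v => ?_
  have h2 : (f * (e - 1)) v = f (e v - v) := rfl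
  rw [h2]
  have h3 : (I • (⊤ : Submodule R V)).map f ≤ I • (⊤ : Submodule R V) := by
    rw [Submodule.map_smul'']
    exact Submodule.smul_mono le_rfl le_top
  exact h3 (Submodule.mem_map_of_mem (he v))

end General

section DVR

variable {O : Type*} [CommRing O] [IsDomain O] [IsDiscreteValuationRing O]

/-- in a DVR every nonzero principal ideal contains a power of the maximal ideal. -/
theorem exists_pow_le_span {x : O} (hx : x ≠ 0) : ∃ n : ℕ, maximalIdeal O ^ n ≤ Ideal.span {x} := by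
  obtain ⟨ϖ, hϖ⟩ := IsDiscreteValuationRing.exists_irreducible O
  have hne : Ideal.span {x} ≠ ⊥ := by
    rw [Ne, Ideal.span_singleton_eq_bot]
    exact hx
  obtain ⟨n, hn⟩ := IsDiscreteValuationRing.ideal_eq_span_pow_irreducible hne hϖ
  refine ⟨n, ?_⟩
  rw [hn, hϖ.maximalIdeal_eq, Ideal.span_singleton_pow]

/-- divisibility by `x` descends along an injective local homomorphism from a DVR. -/
theorem mem_span_of_map_mem_span {R : Type*} [CommRing R] [IsDomain R] [Algebra O R]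
    [IsLocalHom (algebraMap O R)] (hinj : Function.Injective (algebraMap O R)) {x y : O}
    (hx : x ≠ 0) (h : algebraMap O R y ∈ Ideal.span {algebraMap O R x}) :
    y ∈ Ideal.span {x} := by
  rw [Ideal.mem_span_singleton] at h ⊢
  -- in a valuation ring `x ∣ y` or `y ∣ x`
  rcases (ValuationRing.dvd_total x y) with hxy | hyx
  · exact hxy
  · obtain ⟨z, hz⟩ := hyx
    obtain ⟨w, hw⟩ := h
    -- `x = y z`, `y = x w` in `R`, so `z` maps to a unit
    have hx' : algebraMap O R x ≠ 0 := by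
      rw [Ne, map_eq_zero_iff _ hinj]; exact hx
    have h1 : algebraMap O R x * (algebraMap O R z * w) = algebraMap O R x * 1 := by
      have : algebraMap O R x = algebraMap O R y * algebraMap O R z := by rw [← map_mul, ← hz]
      calc algebraMap O R x * (algebraMap O R z * w)
          = (algebraMap O R x * w) * algebraMap O R z := by ring
        _ = algebraMap O R y * algebraMap O R z := by rw [← hw]
        _ = algebraMap O R x * 1 := by rw [← this, mul_one]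
    have h2 : algebraMap O R z * w = 1 := mul_left_cancel₀ hx' h1
    have hzu : IsUnit (algebraMap O R z) := IsUnit.of_mul_eq_one _ h2
    have hz' : IsUnit z := IsLocalHom.map_nonunit z hzu
    obtain ⟨u, rfl⟩ := hz'
    exact ⟨(u⁻¹ : Oˣ), by rw [hz, mul_assoc, Units.mul_inv, mul_one]⟩

end DVR

/-- transfer of the lattice property along injective local homomorphisms. -/
theorem lattice_transfer {p : ℕ} {B : Type*} [CommRing B] {ι : Type} (O R : ι → Type)
    [∀ i, CommRing (O i)] [∀ i, IsDomain (O i)] [∀ i, IsDiscreteValuationRing (O i)]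
    [∀ i, CommRing (R i)] [∀ i, IsDomain (R i)] [∀ i, Algebra (O i) (R i)]
    [∀ i, IsLocalHom (algebraMap (O i) (R i))]
    (hinj : ∀ i, Function.Injective (algebraMap (O i) (R i))) (hp0 : ∀ i, (p : O i) ≠ 0)
    (χ : ∀ i, B →+* O i)
    (hlat : ∃ c : ℕ, ∀ (r : B) (m : ℕ), (∀ i, χ i r ∈ Ideal.span {(p : O i) ^ m}) →
      r ∈ Ideal.span {(p : B) ^ (m - c)}) :
    ∃ c : ℕ, ∀ (r : B) (m : ℕ),
      (∀ i, ((algebraMap (O i) (R i)).comp (χ i)) r ∈ Ideal.span {(p : R i) ^ m}) →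
        r ∈ Ideal.span {(p : B) ^ (m - c)} := by
  obtain ⟨c, hc⟩ := hlat
  refine ⟨c, fun r m h => hc r m fun i => ?_⟩
  refine mem_span_of_map_mem_span (hinj i) (pow_ne_zero m (hp0 i)) ?_
  have := h i
  rwa [RingHom.comp_apply, ← map_natCast (algebraMap (O i) (R i)) p, ← map_pow] at this

/-! ### the comparison -/

section Compare

/-- the trace of `ρ(g)` is congruent to the universal polynomial in the Frobenius data when `g`
agrees with `φ^j` on the level field. -/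
theorem trace_sub_powTr_mem {A : Type} [CommRing A] [IsLocalRing A] (ρ : GaloisRepAdic A)
    (I : Ideal A) (L : IntermediateField ℚ Qb)
    (hL : ∀ g : GQ, (∀ x ∈ L, g x = x) → ∀ v : ρ.V, ρ.ρ g v - v ∈ I • (⊤ : Submodule A ρ.V))
    {g φ : GQ} {j : ℕ} (hφ : ∀ x ∈ L, (φ ^ j) x = g x) {tr d : A}
    (hchar : LinearMap.charpoly (ρ.ρ φ) = X ^ 2 - C tr * X + C d) :
    LinearMap.trace A ρ.V (ρ.ρ g) - powTr tr d j ∈ I := by
  have he : ∀ x ∈ L, ((φ ^ j)⁻¹ * g) x = x := by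
    intro x hx
    rw [AlgEquiv.mul_apply, ← hφ x hx]
    exact (φ ^ j).symm_apply_apply x
  have hg : ρ.ρ g = ρ.ρ (φ ^ j) * ρ.ρ ((φ ^ j)⁻¹ * g) := by
    rw [← map_mul, mul_inv_cancel_left]
  have h1 : LinearMap.trace A ρ.V (ρ.ρ (φ ^ j)) = powTr tr d j := by
    rw [map_pow]
    exact trace_pow_eq ρ.finrank_eq (ρ.ρ φ) hchar j
  rw [← h1, hg]
  exact trace_sub_mem I (ρ.ρ (φ ^ j)) (ρ.ρ ((φ ^ j)⁻¹ * g)) (hL _ he)

variable {p : ℕ}

/-- **Trace comparison.** -/
theorem trace_mul_eq_of_family (hp : p.Prime)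
    {T : Type} [CommRing T] [IsLocalRing T] [IsHausdorff (maximalIdeal T) T]
    (hpT : (p : T) ∈ maximalIdeal T)
    {B : Type*} [CommRing B] (π : B →+* T) (ρ : GaloisRepAdic T)
    (good : ℕ → Prop) (t : ℕ → B)
    (hρ : ∀ ℓ, good ℓ → ∀ A : ValuationSubring Qb, A.LiesOverPrime ℓ → ∀ φ : GQ,
      A.IsFrobeniusAt φ ℓ →
        LinearMap.charpoly (ρ.ρ φ) = X ^ 2 - C (π (t ℓ)) * X + C (ℓ : T))
    {ι : Type} [Finite ι] (R : ι → Type) [∀ i, CommRing (R i)] [∀ i, IsDomain (R i)]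
    [∀ i, IsDiscreteValuationRing (R i)]
    (hpR : ∀ i, (p : R i) ∈ maximalIdeal (R i)) (hpR0 : ∀ i, (p : R i) ≠ 0)
    (χ : ∀ i, B →+* R i) (ρ' : ∀ i, GaloisRepAdic (R i))
    (hρ' : ∀ i ℓ, good ℓ → ∀ A : ValuationSubring Qb, A.LiesOverPrime ℓ → ∀ φ : GQ,
      A.IsFrobeniusAt φ ℓ →
        LinearMap.charpoly ((ρ' i).ρ φ) = X ^ 2 - C (χ i (t ℓ)) * X + C (ℓ : R i))
    (hlat : ∃ c : ℕ, ∀ (r : B) (m : ℕ), (∀ i, χ i r ∈ Ideal.span {(p : R i) ^ m}) →
      r ∈ Ideal.span {(p : B) ^ (m - c)})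
    (hWC : ∀ L : IntermediateField ℚ Qb, FiniteDimensional ℚ L → ∀ σ : GQ,
      ∃ (ℓ : ℕ) (A : ValuationSubring Qb) (φ : GQ) (j : ℕ), good ℓ ∧ A.LiesOverPrime ℓ ∧
        A.IsFrobeniusAt φ ℓ ∧ ∀ x ∈ L, (φ ^ j) x = σ x)
    (τ : GQ) (hτ : ∀ i, (ρ' i).ρ τ = 1) :
    ∀ σ : GQ, LinearMap.trace T ρ.V (ρ.ρ (τ * σ)) = LinearMap.trace T ρ.V (ρ.ρ σ) := by
  classical
  intro σ
  obtain ⟨c, hc⟩ := hlat
  rw [← sub_eq_zero]
  refine eq_zero_of_forall_mem_pow' (maximalIdeal T) fun k => ?_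
  -- the level fields
  obtain ⟨L₀, hL₀fd, hL₀⟩ := ρ.isAdicContinuous k
  have hlev : ∀ i, ∃ L : IntermediateField ℚ Qb, FiniteDimensional ℚ L ∧
      ∀ g : GQ, (∀ x ∈ L, g x = x) → ∀ v : (ρ' i).V, (ρ' i).ρ g v - v ∈
        (Ideal.span {(p : R i) ^ (k + c)}) • (⊤ : Submodule (R i) (ρ' i).V) := by
    intro i
    obtain ⟨n, hn⟩ := exists_pow_le_span (pow_ne_zero (k + c) (hpR0 i))
    obtain ⟨L, hLfd, hL⟩ := (ρ' i).isAdicContinuous n
    exact ⟨L, hLfd, fun g hg v => Submodule.smul_mono hn le_rfl (hL g hg v)⟩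
  choose Li hLifd hLi using hlev
  haveI := hL₀fd
  haveI : ∀ i, FiniteDimensional ℚ (Li i) := hLifd
  set L : IntermediateField ℚ Qb := L₀ ⊔ ⨆ i, Li i with hLdef
  have hLfd : FiniteDimensional ℚ L := by
    rw [hLdef]
    infer_instance
  have hL₀le : L₀ ≤ L := le_sup_left
  have hLile : ∀ i, Li i ≤ L := fun i => le_trans (le_iSup Li i) le_sup_right
  -- weak Chebotarev for `σ` and `τσ`
  obtain ⟨ℓ₁, A₁, φ₁, j₁, hg₁, hA₁, hF₁, hφ₁⟩ := hWC L hLfd σ
  obtain ⟨ℓ₂, A₂, φ₂, j₂, hg₂, hA₂, hF₂, hφ₂⟩ := hWC L hLfd (τ * σ)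
  -- the element of `B`
  set r : B := powTr (t ℓ₂) (ℓ₂ : B) j₂ - powTr (t ℓ₁) (ℓ₁ : B) j₁ with hr
  -- its images in the `R i` are divisible by `p ^ (k + c)`
  have hχr : ∀ i, χ i r ∈ Ideal.span {(p : R i) ^ (k + c)} := by
    intro i
    have b₁ := trace_sub_powTr_mem (ρ' i) (Ideal.span {(p : R i) ^ (k + c)}) (Li i) (hLi i)
      (fun x hx => hφ₁ x (hLile i hx)) (hρ' i ℓ₁ hg₁ A₁ hA₁ φ₁ hF₁)
    have b₂ := trace_sub_powTr_mem (ρ' i) (Ideal.span {(p : R i) ^ (k + c)}) (Li i) (hLi i)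
      (fun x hx => hφ₂ x (hLile i hx)) (hρ' i ℓ₂ hg₂ A₂ hA₂ φ₂ hF₂)
    have hτσ : (ρ' i).ρ (τ * σ) = (ρ' i).ρ σ := by rw [map_mul, hτ i, one_mul]
    rw [hτσ] at b₂
    have e : χ i r = (LinearMap.trace (R i) (ρ' i).V ((ρ' i).ρ σ) -
          powTr (χ i (t ℓ₁)) (ℓ₁ : R i) j₁) -
        (LinearMap.trace (R i) (ρ' i).V ((ρ' i).ρ σ) - powTr (χ i (t ℓ₂)) (ℓ₂ : R i) j₂) := by
      rw [hr, map_sub, map_powTr, map_powTr, map_natCast, map_natCast]
      ring
    rw [e]
    exact Ideal.sub_mem _ b₁ b₂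
  -- hence `r` is divisible by `p ^ k`
  have hrB : r ∈ Ideal.span {(p : B) ^ k} := by
    have := hc r (k + c) hχr
    rwa [Nat.add_sub_cancel] at this
  have hπr : π r ∈ maximalIdeal T ^ k := by
    obtain ⟨r', hr'⟩ := Ideal.mem_span_singleton'.mp hrB
    rw [← hr', map_mul, map_pow, map_natCast]
    exact Ideal.mul_mem_left _ _ (Ideal.pow_mem_pow hpT k)
  -- the traces in `T`
  have a₁ := trace_sub_powTr_mem ρ (maximalIdeal T ^ k) L₀ hL₀
    (fun x hx => hφ₁ x (hL₀le hx)) (hρ ℓ₁ hg₁ A₁ hA₁ φ₁ hF₁)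
  have a₂ := trace_sub_powTr_mem ρ (maximalIdeal T ^ k) L₀ hL₀
    (fun x hx => hφ₂ x (hL₀le hx)) (hρ ℓ₂ hg₂ A₂ hA₂ φ₂ hF₂)
  have e : LinearMap.trace T ρ.V (ρ.ρ (τ * σ)) - LinearMap.trace T ρ.V (ρ.ρ σ) =
      (LinearMap.trace T ρ.V (ρ.ρ (τ * σ)) - powTr (π (t ℓ₂)) (ℓ₂ : T) j₂) -
        (LinearMap.trace T ρ.V (ρ.ρ σ) - powTr (π (t ℓ₁)) (ℓ₁ : T) j₁) + π r := by
    rw [hr, map_sub, map_powTr, map_powTr, map_natCast, map_natCast]
    ring
  rw [e]
  exact Ideal.add_mem _ (Ideal.sub_mem _ a₂ a₁) hπr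

end Compare

end Fermat.Agent.S31lib.TC
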